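/-
S41 (level raising), package "Wire", back end.

`lrw_back`: let `K` be a Hecke-stable sublattice of `L = parabolicHoms ℤ Γ₀(M) ℤ` (`q ∣ M`) on which
`U_q² = 1`, and let `x ∈ K`, `x ∉ pK`, be an eigenvector modulo `pK` of all `T_ℓ` (`ℓ` good for `W`,
`ℓ ∤ M`, `ℓ ≠ p`) with eigenvalue `a_ℓ(W)`.  Then there are a normalised eigenform `g` of level `M`
and a maximal ideal `𝔪'` of `ℤ̄` over `p` with `a_ℓ(g) ≡ a_ℓ(W) mod 𝔪'` for those `ℓ` and
`a_q(g)² = 1`.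

Proof: Deligne–Serre lifting (`exists_eigen_character_lifting`) in `ℂ ⊗ K`, transport through
the Eichler–Shimura isomorphism `tdmPhi : S₂ × S₂ ≃ ℂ ⊗ L` (T1-D), normalisation.
-/
import Mathlib
import Fermat.Prelude.Def_FLTPrelim_ModularRep
import Fermat.Prelude.Def_FreyPackage_LevelRaising
import Fermat.Agent.Lib.T1.Mono.Lattice
import Fermat.Agent.Lib.Helper8.LiftingAlgebra
import Fermat.Agent.Lib.Helper8.HeckeEigen
import Fermat.Agent.Lib.S22.HeckeFinite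

set_option autoImplicit false
set_option linter.unusedSectionVars false
set_option linter.unusedVariables false
set_option linter.style.haveILetI false

open Fermat.Agent.T1 CongruenceSubgroup ModularFormClass Fermat.Agent.Lib.Helper8
open scoped TensorProduct

namespace Fermat.Agent.LR

noncomputable section

variable {M : ℕ} [NeZero M]

local notation "𝕋" => CuspForm.heckeAlgebra M 2 (∅ : Set ℕ)

/-! ### Normalising a common eigenvector, with the `U`-eigenvalues -/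

omit [NeZero M] in
/-- The eigenvalue of `U_q` on a normalised eigenvector is its `q`-th coefficient. -/
theorem lrw_qCoeff_prime_eq_eigenvalue_U [NeZero M] (f : CuspForm (Gamma0 M) 2)
    (hf1 : qCoeff ⇑f 1 = 1) {q : ℕ} (hq : q.Prime) (hqM : q ∣ M) (μ : ℂ)
    (hμ : CuspForm.heckeULin 2 hqM f = μ • f) : qCoeff ⇑f q = μ := by
  have h1 := h8_qCoeff_heckeULin (k := 2) hq hqM f 1
  rw [hμ, h8_qCoeff_smul, hf1, mul_one, one_mul] at h1
  exact h1.symm

/-- Normalising a nonzero common eigenvector; the coefficients at all primes are the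
eigenvalues. -/
theorem lrw_exists_normalized (w : CuspForm (Gamma0 M) 2) (hw : w ≠ 0) (χ : 𝕋 → ℂ)
    (heig : ∀ T : 𝕋, (T : Module.End ℂ (CuspForm (Gamma0 M) 2)) w = χ T • w) :
    ∃ f : CuspForm (Gamma0 M) 2, f.IsNormalizedEigenform ∧
      (∀ (ℓ : ℕ) (hℓ : ℓ.Prime) (hN : ¬ ℓ ∣ M),
        qCoeff ⇑f ℓ = χ (CuspForm.heckeAlgebra.T hℓ hN (Set.notMem_empty ℓ))) ∧
      (∀ (q : ℕ) (hq : q.Prime) (hqM : q ∣ M),
        qCoeff ⇑f q = χ (CuspForm.heckeAlgebra.U hq hqM (Set.notMem_empty q))) := by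
  have heig' : ∀ T ∈ CuspForm.heckeAlgebra M 2 (∅ : Set ℕ), ∃ μ : ℂ, T w = μ • w :=
    fun T hT => ⟨χ ⟨T, hT⟩, heig ⟨T, hT⟩⟩
  have hc1 := h8_qCoeff_one_ne_zero w hw heig'
  set c := qCoeff ⇑w 1 with hc
  set f : CuspForm (Gamma0 M) 2 := c⁻¹ • w with hf
  have hf1 : qCoeff ⇑f 1 = 1 := by
    rw [hf, h8_qCoeff_smul, ← hc, inv_mul_cancel₀ hc1]
  have hfeig : ∀ T : 𝕋, (T : Module.End ℂ (CuspForm (Gamma0 M) 2)) f = χ T • f := by
    intro T
    rw [hf, map_smul, heig T, smul_comm]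
  have hfeig' : ∀ T ∈ CuspForm.heckeAlgebra M 2 (∅ : Set ℕ), ∃ μ : ℂ, T f = μ • f :=
    fun T hT => ⟨χ ⟨T, hT⟩, hfeig ⟨T, hT⟩⟩
  refine ⟨f, h8_isNormalizedEigenform_of_eigenvector f hf1 hfeig', fun ℓ hℓ hN => ?_,
    fun q hq hqM => ?_⟩
  · exact h8_qCoeff_prime_eq_eigenvalue f hf1 hℓ hN _
      (hfeig (CuspForm.heckeAlgebra.T hℓ hN (Set.notMem_empty ℓ)))
  · exact lrw_qCoeff_prime_eq_eigenvalue_U f hf1 hq hqM _
      (hfeig (CuspForm.heckeAlgebra.U hq hqM (Set.notMem_empty q)))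

/-! ### The Hecke action on a stable sublattice -/

variable (K : Submodule ℤ ↥(tdmL M))

/-- `K` is stable under the Hecke algebra -/
def LrwStable : Prop := ∀ (t : 𝕋) (x : ↥(tdmL M)), x ∈ K → tdmHecke M t x ∈ K

variable (hstab : LrwStable K)

/-- the Hecke algebra acting on the stable sublattice `K` -/
def lrwRho (hstab : LrwStable K) : 𝕋 →+* Module.End ℤ ↥K where
  toFun t := (tdmHecke M t).restrict (fun x hx => hstab t x hx)
  map_one' := by
    apply LinearMap.ext; intro x; apply Subtype.ext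
    simp [LinearMap.restrict_apply]
  map_mul' a b := by
    apply LinearMap.ext; intro x; apply Subtype.ext
    simp [LinearMap.restrict_apply, map_mul]
  map_zero' := by
    apply LinearMap.ext; intro x; apply Subtype.ext
    simp [LinearMap.restrict_apply]
  map_add' a b := by
    apply LinearMap.ext; intro x; apply Subtype.ext
    simp [LinearMap.restrict_apply, map_add]

@[simp] theorem lrwRho_apply_coe (t : 𝕋) (x : ↥K) :
    ((lrwRho K hstab t x : ↥K) : ↥(tdmL M)) = tdmHecke M t (x : ↥(tdmL M)) := rfl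

/-- the image of the Hecke algebra in `End(K)`, as a quotient ring -/
abbrev lrwA (hstab : LrwStable K) : Type := 𝕋 ⧸ RingHom.ker (lrwRho K hstab)

/-- `A → End_ℤ(K)` -/
def lrwRhoBar (hstab : LrwStable K) : lrwA K hstab →+* Module.End ℤ ↥K := RingHom.kerLift (lrwRho K hstab)

theorem lrwRhoBar_mk (t : 𝕋) :
    lrwRhoBar K hstab (Ideal.Quotient.mk _ t) = lrwRho K hstab t :=
  RingHom.kerLift_mk _ t

theorem lrwRhoBar_injective : Function.Injective (lrwRhoBar K hstab) :=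
  RingHom.kerLift_injective _

/-- `A → End_ℂ(ℂ ⊗ K)` -/
def lrwIota (hstab : LrwStable K) : lrwA K hstab →+* Module.End ℂ (ℂ ⊗[ℤ] ↥K) :=
  ((Module.End.baseChangeHom ℤ ℂ ↥K : Module.End ℤ ↥K →ₐ[ℤ] Module.End ℂ (ℂ ⊗[ℤ] ↥K)) :
    Module.End ℤ ↥K →+* Module.End ℂ (ℂ ⊗[ℤ] ↥K)).comp (lrwRhoBar K hstab)

theorem lrwIota_apply (a : lrwA K hstab) :
    lrwIota K hstab a = (lrwRhoBar K hstab a).baseChange ℂ := rfl

instance lrw_free_K : Module.Free ℤ ↥K := by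
  haveI : Module.IsTorsionFree ℤ ↥K := inferInstance
  exact Module.free_of_finite_type_torsion_free'

theorem lrwIota_injective : Function.Injective (lrwIota K hstab) := by
  intro a b hab
  apply lrwRhoBar_injective K hstab
  apply LinearMap.ext
  intro k
  apply tdm_tmul_one_injective (L := ↥K)
  show (1 : ℂ) ⊗ₜ[ℤ] (lrwRhoBar K hstab a k) = (1 : ℂ) ⊗ₜ[ℤ] (lrwRhoBar K hstab b k)
  have h := congrArg (fun s : Module.End ℂ (ℂ ⊗[ℤ] ↥K) => s ((1 : ℂ) ⊗ₜ[ℤ] k)) hab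
  simpa [lrwIota_apply, LinearMap.baseChange_tmul] using h

instance lrw_finite_A (hstab : LrwStable K) : Module.Finite ℤ (lrwA K hstab) := by
  haveI : Module.Finite ℤ 𝕋 := Fermat.Agent.S22Lib.moduleFinite_heckeAlgebra M 2 ∅
  exact Module.Finite.of_surjective
    (Ideal.Quotient.mkₐ ℤ (RingHom.ker (lrwRho K hstab))).toLinearMap
    (Ideal.Quotient.mkₐ_surjective ℤ _)

/-! ### The ideal of the eigenvector modulo `p` -/

/-- the ideal of all `a ∈ A` with `a x ∈ pK` -/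
def lrwJ (hstab : LrwStable K) (p : ℕ) (x : ↥K) : Ideal (lrwA K hstab) where
  carrier := {a | ∃ y : ↥K, lrwRhoBar K hstab a x = (p : ℤ) • y}
  add_mem' := by
    rintro a b ⟨y, hy⟩ ⟨z, hz⟩
    exact ⟨y + z, by rw [map_add, LinearMap.add_apply, hy, hz, smul_add]⟩
  zero_mem' := ⟨0, by simp⟩
  smul_mem' := by
    rintro c a ⟨y, hy⟩
    refine ⟨lrwRhoBar K hstab c y, ?_⟩
    rw [smul_eq_mul, map_mul, Module.End.mul_apply, hy, map_zsmul]

theorem lrw_mem_J {p : ℕ} {x : ↥K} {a : lrwA K hstab} :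
    a ∈ lrwJ K hstab p x ↔ ∃ y : ↥K, lrwRhoBar K hstab a x = (p : ℤ) • y := Iff.rfl

theorem lrwJ_ne_top {p : ℕ} {x : ↥K} (hx : ¬ ∃ y : ↥K, x = (p : ℤ) • y) :
    lrwJ K hstab p x ≠ ⊤ := by
  intro h
  have h1 : (1 : lrwA K hstab) ∈ lrwJ K hstab p x := by rw [h]; exact Submodule.mem_top
  obtain ⟨y, hy⟩ := h1
  rw [map_one, Module.End.one_apply] at hy
  exact hx ⟨y, hy⟩

theorem lrw_p_mem_J (p : ℕ) (x : ↥K) : ((p : ℕ) : lrwA K hstab) ∈ lrwJ K hstab p x := by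
  refine ⟨x, ?_⟩
  rw [map_natCast]
  show ((p : ℕ) : Module.End ℤ ↥K) x = (p : ℤ) • x
  rw [Module.End.natCast_apply, natCast_zsmul]


/-! ### Transport to cusp forms -/

theorem lrwIota_mk_apply (hstab : LrwStable K) (t : 𝕋) (w : ℂ ⊗[ℤ] ↥K) :
    lrwIota K hstab (Ideal.Quotient.mk _ t) w = (lrwRho K hstab t).baseChange ℂ w := rfl

theorem lrw_sub_bc_injective : Function.Injective (K.subtype.baseChange ℂ) := by
  have := Module.Flat.lTensor_preserves_injective_linearMap (M := ℂ) K.subtype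
    (Submodule.subtype_injective K)
  intro a b hab
  apply this
  simpa [LinearMap.baseChange_eq_ltensor] using hab

theorem lrw_hecke_sub (hstab : LrwStable K) (t : 𝕋) :
    (tdmHecke M t) ∘ₗ K.subtype = K.subtype ∘ₗ (lrwRho K hstab t) := by
  apply LinearMap.ext; intro k; rfl

/-- eigen-equations in `ℂ ⊗ K` give eigen-equations in `ℂ ⊗ L` -/
theorem lrw_eigen_transport (hstab : LrwStable K) (t : 𝕋) (w : ℂ ⊗[ℤ] ↥K) (c : ℂ)
    (h : lrwIota K hstab (Ideal.Quotient.mk _ t) w = c • w) :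
    (tdmHecke M t).baseChange ℂ (K.subtype.baseChange ℂ w) = c • (K.subtype.baseChange ℂ w) := by
  have h2 : ((tdmHecke M t) ∘ₗ K.subtype).baseChange ℂ w
      = (K.subtype ∘ₗ (lrwRho K hstab t)).baseChange ℂ w := by rw [lrw_hecke_sub K hstab t]
  rw [LinearMap.baseChange_comp, LinearMap.baseChange_comp, LinearMap.comp_apply,
    LinearMap.comp_apply] at h2
  rw [h2, ← lrwIota_mk_apply K hstab t w, h, map_smul]

/-- a common eigenvector in `ℂ ⊗ L` gives a common eigenvector among cusp forms -/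
theorem lrw_exists_cuspForm (w' : ℂ ⊗[ℤ] ↥(tdmL M)) (hw' : w' ≠ 0) (c : 𝕋 → ℂ)
    (heq : ∀ t : 𝕋, (tdmHecke M t).baseChange ℂ w' = c t • w') :
    ∃ h : CuspForm (Gamma0 M) 2, h ≠ 0 ∧ ∀ t : 𝕋,
      (t : Module.End ℂ (CuspForm (Gamma0 M) 2)) h = c t • h := by
  obtain ⟨fg, hfg⟩ := (tdmPhi M).surjective w'
  have hfg0 : fg ≠ 0 := by
    intro h
    apply hw'
    rw [← hfg, h, map_zero]
  have hΦ : tdmPhi M (fg.1, fg.2) = w' := hfg
  have hpair : ∀ t : 𝕋,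
      ((t : Module.End ℂ (CuspForm (Gamma0 M) 2)) fg.1,
        (t : Module.End ℂ (CuspForm (Gamma0 M) 2)) fg.2) = c t • (fg.1, fg.2) := by
    intro t
    apply (tdmPhi M).injective
    rw [← tdmHecke_spec, hΦ, heq t, map_smul, hΦ]
  by_cases h1 : fg.1 = 0
  · refine ⟨fg.2, fun h2 => hfg0 (Prod.ext h1 h2), fun t => ?_⟩
    have := congrArg Prod.snd (hpair t)
    simpa using this
  · refine ⟨fg.1, h1, fun t => ?_⟩
    have := congrArg Prod.fst (hpair t)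
    simpa using this

/-! ### The back end -/

/-- **S41, back end.** -/
theorem lrw_back (W : WeierstrassCurve ℤ) {p q : ℕ} (hq : q.Prime) (hqM : q ∣ M)
    (hstab : LrwStable K)
    (hU : ∀ x ∈ K, tdmHecke M (CuspForm.heckeAlgebra.U hq hqM (Set.notMem_empty q))
      (tdmHecke M (CuspForm.heckeAlgebra.U hq hqM (Set.notMem_empty q)) x) = x)
    (x : ↥(tdmL M)) (hxK : x ∈ K) (hx : ¬ ∃ y ∈ K, x = (p : ℤ) • y)
    (heig : ∀ (ℓ : ℕ) (hℓ : ℓ.Prime) (hℓM : ¬ ℓ ∣ M), W.IsGoodPrimeFor ℓ → ℓ ≠ p →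
      ∃ y ∈ K, tdmHecke M (CuspForm.heckeAlgebra.T hℓ hℓM (Set.notMem_empty ℓ)) x
        - (W.apOfModel ℓ) • x = (p : ℤ) • y) :
    ∃ (g : CuspForm (Gamma0 M) 2) (𝔪' : Ideal (integralClosure ℤ ℂ)),
      g.IsNormalizedEigenform ∧ 𝔪'.IsMaximal ∧ (p : integralClosure ℤ ℂ) ∈ 𝔪' ∧
      (∀ ℓ : ℕ, ℓ.Prime → W.IsGoodPrimeFor ℓ → ¬ ℓ ∣ M → ℓ ≠ p →
        ∃ a : integralClosure ℤ ℂ, (a : ℂ) = ModularFormClass.qCoeff g ℓ ∧
          a - ((W.apOfModel ℓ : ℤ) : integralClosure ℤ ℂ) ∈ 𝔪') ∧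
      g.IsNewAt q := by
  classical
  have hx' : ¬ ∃ y : ↥K, (⟨x, hxK⟩ : ↥K) = (p : ℤ) • y := by
    rintro ⟨y, hy⟩
    exact hx ⟨y.1, y.2, congrArg Subtype.val hy⟩
  obtain ⟨𝔪₁, h𝔪₁, hJ𝔪₁⟩ := Ideal.exists_le_maximal _ (lrwJ_ne_top K hstab hx')
  haveI := h𝔪₁
  obtain ⟨w, χ, 𝔪', hw0, hχ, h𝔪', hcomap⟩ :=
    exists_eigen_character_lifting (lrwIota K hstab) (lrwIota_injective K hstab) 𝔪₁
  have hw'0 : K.subtype.baseChange ℂ w ≠ 0 := by
    intro h
    apply hw0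
    apply lrw_sub_bc_injective K
    rw [h, map_zero]
  obtain ⟨h, hh0, hheig⟩ := lrw_exists_cuspForm (K.subtype.baseChange ℂ w) hw'0
    (fun t => ((χ (Ideal.Quotient.mk _ t) : integralClosure ℤ ℂ) : ℂ))
    (fun t => lrw_eigen_transport K hstab t w _ (hχ _))
  obtain ⟨g, hg, hgT, hgU⟩ := lrw_exists_normalized h hh0
    (fun t => ((χ (Ideal.Quotient.mk _ t) : integralClosure ℤ ℂ) : ℂ)) hheig
  refine ⟨g, 𝔪', hg, h𝔪', ?_, ?_, ?_⟩
  · -- `p ∈ 𝔪'`
    have hp𝔪₁ : ((p : ℕ) : lrwA K hstab) ∈ 𝔪₁ := hJ𝔪₁ (lrw_p_mem_J K hstab p ⟨x, hxK⟩)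
    rw [← hcomap, Ideal.mem_comap, map_natCast] at hp𝔪₁
    exact hp𝔪₁
  · -- the congruences
    intro ℓ hℓ hgood hℓM hℓp
    refine ⟨χ (Ideal.Quotient.mk _ (CuspForm.heckeAlgebra.T hℓ hℓM (Set.notMem_empty ℓ))),
      (hgT ℓ hℓ hℓM).symm, ?_⟩
    obtain ⟨y, hyK, hy⟩ := heig ℓ hℓ hℓM hgood hℓp
    have hmem : (Ideal.Quotient.mk _ (CuspForm.heckeAlgebra.T hℓ hℓM (Set.notMem_empty ℓ))
        - ((W.apOfModel ℓ : ℤ) : lrwA K hstab)) ∈ lrwJ K hstab p ⟨x, hxK⟩ := by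
      refine ⟨⟨y, hyK⟩, ?_⟩
      apply Subtype.ext
      rw [map_sub, LinearMap.sub_apply, lrwRhoBar_mk, map_intCast, Module.End.intCast_apply]
      exact hy
    have hmem' := hJ𝔪₁ hmem
    rw [← hcomap, Ideal.mem_comap, map_sub, map_intCast] at hmem'
    exact hmem'
  · -- new at `q`
    show ModularFormClass.qCoeff g q ^ 2 = 1
    rw [hgU q hq hqM]
    have hUU : (Ideal.Quotient.mk (RingHom.ker (lrwRho K hstab))
        (CuspForm.heckeAlgebra.U hq hqM (Set.notMem_empty q))) ^ 2 = 1 := by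
      apply lrwRhoBar_injective K hstab
      rw [map_pow, lrwRhoBar_mk, map_one]
      apply LinearMap.ext; intro k; apply Subtype.ext
      rw [pow_two, Module.End.mul_apply]
      exact hU k.1 k.2
    have := congrArg (fun a => ((χ a : integralClosure ℤ ℂ) : ℂ)) hUU
    simpa using this

end

end Fermat.Agent.LR
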