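/-
S41 (level raising), package D "Extract", unconditional form: `lro_final`.

Uses helper1's package B (`Lib/LR/HeckeLat.lean`: `lrhK`, `lrh_T_mem_K`, `lrh_Ur_mem_K`, `lrh_U_mem_K`,
`lrh_U_U_of_mem_K`) and the back end `lrw_back`.
-/
import Mathlib
import Fermat.Agent.Lib.LR.Wire.Back
import Fermat.Agent.Lib.LR.HeckeLat

set_option autoImplicit false
set_option linter.unusedSectionVars false
set_option linter.unusedVariables false
set_option linter.style.haveILetI false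

open Fermat.Agent.T1 Fermat.Agent.T2 CongruenceSubgroup ModularFormClass ModularCurve.Period
open scoped TensorProduct

namespace Fermat.Agent.LR

noncomputable section

variable {N q : ℕ} [NeZero N] [hq : Fact q.Prime] {h : ¬ q ∣ N} [NeZero (N * q)]

/-- `K = lrhK N q h` is stable under the full Hecke algebra of level `N q` -/
theorem lro_stable_K : LrwStable (lrhK N q h) := by
  rintro ⟨T, hT⟩ x hx
  induction hT using Algebra.adjoin_induction generalizing x with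
  | mem T hT =>
    rcases hT with ⟨ℓ, hℓ, hℓN, -, rfl⟩ | ⟨r, hrN, hr, -, rfl⟩
    · have : tdmHecke (N * q) ⟨CuspForm.heckeTLin 2 hℓ hℓN, _⟩
          = (tdmSysT (N * q) ℓ hℓ hℓN).homPar ℤ ℤ :=
        tdmHecke_T (N * q) hℓ hℓN (Set.notMem_empty ℓ)
      rw [this]
      exact lrh_T_mem_K N q h ℓ hℓ hℓN hx
    · have : tdmHecke (N * q) ⟨CuspForm.heckeULin 2 hrN, _⟩
          = (tdmSysU (N * q) r hrN hr.ne_zero).homPar ℤ ℤ :=
        tdmHecke_U (N * q) hr hrN (Set.notMem_empty r)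
      rw [this]
      rcases (Nat.Prime.dvd_mul hr).mp hrN with hrN' | hrq
      · exact lrh_Ur_mem_K N q h r hr hrN' hx
      · have hrq' : r = q := (Nat.prime_dvd_prime_iff_eq hr hq.out).mp hrq
        subst hrq'
        exact lrh_U_mem_K N r h hx
  | algebraMap n =>
    have : tdmHecke (N * q) ⟨algebraMap ℤ _ n, Subalgebra.algebraMap_mem _ n⟩
        = algebraMap ℤ (Module.End ℤ ↥(tdmL (N * q))) n := by
      have h1 : (⟨algebraMap ℤ _ n, Subalgebra.algebraMap_mem _ n⟩ :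
          CuspForm.heckeAlgebra (N * q) 2 (∅ : Set ℕ))
            = ((n : ℤ) : CuspForm.heckeAlgebra (N * q) 2 ∅) := by
        apply Subtype.ext; simp
      rw [h1, map_intCast]; simp
    rw [this]
    simpa using (lrhK N q h).smul_mem n hx
  | add a b ha hb iha ihb =>
    have : tdmHecke (N * q) ⟨a + b, Subalgebra.add_mem _ ha hb⟩
        = tdmHecke (N * q) ⟨a, ha⟩ + tdmHecke (N * q) ⟨b, hb⟩ := by
      rw [← map_add]; rfl
    rw [this, LinearMap.add_apply]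
    exact (lrhK N q h).add_mem (iha x hx) (ihb x hx)
  | mul a b ha hb iha ihb =>
    have : tdmHecke (N * q) ⟨a * b, Subalgebra.mul_mem _ ha hb⟩
        = tdmHecke (N * q) ⟨a, ha⟩ * tdmHecke (N * q) ⟨b, hb⟩ := by
      rw [← map_mul]; rfl
    rw [this, Module.End.mul_apply]
    exact iha _ (ihb x hx)

/-- **S41, package D, unconditional.**  `β₁ = lrhCor`, `β₂ = lrhCor ∘ lrhW`, `T' ℓ = lrhT (N q) ℓ`:
exactly the conclusion of `lrf_main` is consumed. -/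
theorem lro_final (W : WeierstrassCurve ℤ) {p : ℕ}
    (k : ↥(tdmL (N * q))) (hk1 : lrhCor N q h k = 0) (hk2 : lrhCor N q h (lrhW N q h k) = 0)
    (hk : ¬ ∃ z : ↥(tdmL (N * q)), k = (p : ℤ) • z)
    (hkT : ∀ (ℓ : ℕ) (hℓ : ℓ.Prime) (hℓNq : ¬ ℓ ∣ N * q), W.IsGoodPrimeFor ℓ → ℓ ≠ p →
      ∃ z : ↥(tdmL (N * q)), lrhCor N q h z = 0 ∧ lrhCor N q h (lrhW N q h z) = 0 ∧
        lrhT (N * q) ℓ hℓ hℓNq k - (W.apOfModel ℓ) • k = (p : ℤ) • z) :
    ∃ (g : CuspForm (Gamma0 (N * q)) 2) (𝔪' : Ideal (integralClosure ℤ ℂ)),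
      g.IsNormalizedEigenform ∧ 𝔪'.IsMaximal ∧ (p : integralClosure ℤ ℂ) ∈ 𝔪' ∧
      (∀ ℓ : ℕ, ℓ.Prime → W.IsGoodPrimeFor ℓ → ¬ ℓ ∣ N * q → ℓ ≠ p →
        ∃ a : integralClosure ℤ ℂ, (a : ℂ) = ModularFormClass.qCoeff g ℓ ∧
          a - ((W.apOfModel ℓ : ℤ) : integralClosure ℤ ℂ) ∈ 𝔪') ∧
      g.IsNewAt q := by
  have hqM : q ∣ N * q := Dvd.intro_left N rfl
  refine lrw_back (lrhK N q h) W hq.out hqM lro_stable_K ?_ k
    ((lrh_mem_K N q h).mpr ⟨hk1, hk2⟩) ?_ ?_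
  · intro x hx
    rw [tdmHecke_U (N * q) hq.out hqM (Set.notMem_empty q)]
    exact lrh_U_U_of_mem_K N q h hx
  · rintro ⟨y, -, hy⟩
    exact hk ⟨y, hy⟩
  · intro ℓ hℓ hℓM hgood hℓp
    obtain ⟨z, hz1, hz2, hz⟩ := hkT ℓ hℓ hℓM hgood hℓp
    refine ⟨z, (lrh_mem_K N q h).mpr ⟨hz1, hz2⟩, ?_⟩
    rw [tdmHecke_T (N * q) hℓ hℓM (Set.notMem_empty ℓ)]
    exact hz

end

end Fermat.Agent.LR
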