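/-
S41 (level raising), package D "Extract" (brief v1, step (5)).

`K := ker(cor) ∩ ker(cor ∘ w) ⊆ L_{Nq}` is the `q`-new sublattice.  On `K`: `U_q = −w`, `U_q² = 1`,
and `K` is stable under the whole Hecke algebra of level `Nq` (given the compatibilities of
package B, here hypotheses).  `lro_main`: an integral class `k ∈ K`, `k ∉ p L_{Nq}`, which is an
eigenvector modulo `pK` for the good `T_ℓ` with eigenvalues `a_ℓ(W)` yields the conclusion of S41.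
-/
import Mathlib
import Fermat.Agent.Lib.LR.Wire.Back
import Fermat.Agent.Lib.T2.F.ResCor
import Fermat.Agent.Lib.T2.F.WT

set_option autoImplicit false
set_option linter.unusedSectionVars false
set_option linter.unusedVariables false
set_option linter.style.haveILetI false

open Fermat.Agent.T1 Fermat.Agent.T2 CongruenceSubgroup ModularFormClass ModularCurve.Period
open scoped TensorProduct

namespace Fermat.Agent.LR

noncomputable section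

variable (N q : ℕ) [NeZero N] [hq : Fact q.Prime] (h : ¬ q ∣ N) [NeZero (N * q)]

/-- `cor : L_{Nq} → L_N` -/
abbrev lroCor : ↥(tdmL (N * q)) →ₗ[ℤ] ↥(tdmL N) := (t2fSysC N q h).corPar ℤ ℤ

/-- `w : L_{Nq} → L_{Nq}` -/
abbrev lroW : ↥(tdmL (N * q)) →ₗ[ℤ] ↥(tdmL (N * q)) := (t2fSysW N q h).homPar ℤ ℤ

/-- `U_q : L_{Nq} → L_{Nq}` -/
abbrev lroUq : ↥(tdmL (N * q)) →ₗ[ℤ] ↥(tdmL (N * q)) :=
  (tdmSysU (N * q) q (Dvd.intro_left N rfl) hq.out.ne_zero).homPar ℤ ℤ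

/-- the `q`-new sublattice `K = ker(cor) ∩ ker(cor ∘ w)` -/
def lroK : Submodule ℤ ↥(tdmL (N * q)) :=
  LinearMap.ker (lroCor N q h) ⊓ LinearMap.ker ((lroCor N q h).comp (lroW N q h))

theorem lro_mem_K {k : ↥(tdmL (N * q))} :
    k ∈ lroK N q h ↔ lroCor N q h k = 0 ∧ lroCor N q h (lroW N q h k) = 0 := by
  rw [lroK, Submodule.mem_inf, LinearMap.mem_ker, LinearMap.mem_ker, LinearMap.comp_apply]

theorem lroW_lroW (k : ↥(tdmL (N * q))) : lroW N q h (lroW N q h k) = k := by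
  apply Subtype.ext
  rw [tdmCosetSys.homPar_coe, tdmCosetSys.homPar_coe]
  exact t2fSysW_hom_hom N q h _

theorem lro_w_mem {k : ↥(tdmL (N * q))} (hk : k ∈ lroK N q h) : lroW N q h k ∈ lroK N q h := by
  rw [lro_mem_K] at hk ⊢
  exact ⟨hk.2, by rw [lroW_lroW]; exact hk.1⟩

/-- `res ∘ cor = 1 + U_q ∘ w` on the lattice -/
theorem lro_res_cor (k : ↥(tdmL (N * q))) :
    t2fResPar (t2f5_Gamma0_le N q) ℤ ℤ (lroCor N q h k) = k + lroUq N q (lroW N q h k) := by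
  apply Subtype.ext
  rw [t2fResPar_coe, T2fSys₂.corPar_coe, Submodule.coe_add, tdmCosetSys.homPar_coe,
    tdmCosetSys.homPar_coe]
  exact t2f5_res_cor N q h _

theorem lro_Uq_w {k : ↥(tdmL (N * q))} (hk : k ∈ lroK N q h) :
    lroUq N q (lroW N q h k) = -k := by
  have h1 := lro_res_cor N q h k
  rw [((lro_mem_K N q h).mp hk).1, map_zero] at h1
  exact (neg_eq_of_add_eq_zero_right h1.symm).symm ▸ rfl

/-- `U_q = −w` on `K` -/
theorem lro_Uq_eq {k : ↥(tdmL (N * q))} (hk : k ∈ lroK N q h) :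
    lroUq N q k = -lroW N q h k := by
  have := lro_Uq_w N q h (lro_w_mem N q h hk)
  rwa [lroW_lroW] at this

/-- `U_q² = 1` on `K` -/
theorem lro_Uq_Uq {k : ↥(tdmL (N * q))} (hk : k ∈ lroK N q h) :
    lroUq N q (lroUq N q k) = k := by
  rw [lro_Uq_eq N q h hk, map_neg, lro_Uq_w N q h hk, neg_neg]

theorem lro_Uq_mem {k : ↥(tdmL (N * q))} (hk : k ∈ lroK N q h) : lroUq N q k ∈ lroK N q h := by
  rw [lro_Uq_eq N q h hk]
  exact (lroK N q h).neg_mem (lro_w_mem N q h hk)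

/-! ### The compatibilities of package B, as hypotheses -/

/-- `cor ∘ T_ℓ = T_ℓ ∘ cor` -/
def LroCorT : Prop :=
  ∀ (ℓ : ℕ) (hℓ : ℓ.Prime) (hℓNq : ¬ ℓ ∣ N * q) (hℓN : ¬ ℓ ∣ N)
    (φ : Additive (Gamma0 (N * q)) →+ ℤ),
    (t2fSysC N q h).cor ℤ ((tdmSysT (N * q) ℓ hℓ hℓNq).hom ℤ φ)
      = (tdmSysT N ℓ hℓ hℓN).hom ℤ ((t2fSysC N q h).cor ℤ φ)

/-- `cor ∘ U_r = U_r ∘ cor` for `r ∣ N` -/
def LroCorU : Prop :=
  ∀ (r : ℕ) (hrN : r ∣ N) (hrNq : r ∣ N * q) (hr0 : r ≠ 0)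
    (φ : Additive (Gamma0 (N * q)) →+ ℤ),
    (t2fSysC N q h).cor ℤ ((tdmSysU (N * q) r hrNq hr0).hom ℤ φ)
      = (tdmSysU N r hrN hr0).hom ℤ ((t2fSysC N q h).cor ℤ φ)

/-- `w ∘ U_r = U_r ∘ w` for `r ∣ N` -/
def LroWU : Prop :=
  ∀ (r : ℕ) (hrN : r ∣ N) (hrNq : r ∣ N * q) (hr0 : r ≠ 0)
    (φ : Additive (Gamma0 (N * q)) →+ ℤ),
    (t2fSysW N q h).hom ℤ ((tdmSysU (N * q) r hrNq hr0).hom ℤ φ)
      = (tdmSysU (N * q) r hrNq hr0).hom ℤ ((t2fSysW N q h).hom ℤ φ)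

variable {N q h}

theorem lro_T_mem (hcT : LroCorT N q h) {ℓ : ℕ} (hℓ : ℓ.Prime) (hℓNq : ¬ ℓ ∣ N * q)
    {k : ↥(tdmL (N * q))} (hk : k ∈ lroK N q h) :
    (tdmSysT (N * q) ℓ hℓ hℓNq).homPar ℤ ℤ k ∈ lroK N q h := by
  have hℓN : ¬ ℓ ∣ N := fun hd => hℓNq (Dvd.dvd.mul_right hd q)
  rw [lro_mem_K] at hk ⊢
  constructor
  · apply Subtype.ext
    rw [T2fSys₂.corPar_coe, tdmCosetSys.homPar_coe, hcT ℓ hℓ hℓNq hℓN]
    have := congrArg Subtype.val hk.1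
    rw [T2fSys₂.corPar_coe] at this
    rw [this]
    simp
  · apply Subtype.ext
    rw [T2fSys₂.corPar_coe, tdmCosetSys.homPar_coe, tdmCosetSys.homPar_coe,
      ← t2f5_W_T_comm N q h ℓ hℓ hℓNq, hcT ℓ hℓ hℓNq hℓN]
    have := congrArg Subtype.val hk.2
    rw [T2fSys₂.corPar_coe, tdmCosetSys.homPar_coe] at this
    rw [this]
    simp

theorem lro_U_mem (hcU : LroCorU N q h) (hwU : LroWU N q h) {r : ℕ} (hrN : r ∣ N)
    (hrNq : r ∣ N * q) (hr0 : r ≠ 0) {k : ↥(tdmL (N * q))} (hk : k ∈ lroK N q h) :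
    (tdmSysU (N * q) r hrNq hr0).homPar ℤ ℤ k ∈ lroK N q h := by
  rw [lro_mem_K] at hk ⊢
  constructor
  · apply Subtype.ext
    rw [T2fSys₂.corPar_coe, tdmCosetSys.homPar_coe, hcU r hrN hrNq hr0]
    have := congrArg Subtype.val hk.1
    rw [T2fSys₂.corPar_coe] at this
    rw [this]
    simp
  · apply Subtype.ext
    rw [T2fSys₂.corPar_coe, tdmCosetSys.homPar_coe, tdmCosetSys.homPar_coe,
      hwU r hrN hrNq hr0, hcU r hrN hrNq hr0]
    have := congrArg Subtype.val hk.2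
    rw [T2fSys₂.corPar_coe, tdmCosetSys.homPar_coe] at this
    rw [this]
    simp

/-- `K` is stable under the full Hecke algebra of level `N q` -/
theorem lro_stable (hcT : LroCorT N q h) (hcU : LroCorU N q h) (hwU : LroWU N q h) :
    LrwStable (lroK N q h) := by
  rintro ⟨T, hT⟩ x hx
  induction hT using Algebra.adjoin_induction generalizing x with
  | mem T hT =>
    rcases hT with ⟨ℓ, hℓ, hℓN, -, rfl⟩ | ⟨r, hrN, hr, -, rfl⟩
    · have : tdmHecke (N * q) ⟨CuspForm.heckeTLin 2 hℓ hℓN, _⟩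
          = (tdmSysT (N * q) ℓ hℓ hℓN).homPar ℤ ℤ :=
        tdmHecke_T (N * q) hℓ hℓN (Set.notMem_empty ℓ)
      rw [this]
      exact lro_T_mem hcT hℓ hℓN hx
    · have : tdmHecke (N * q) ⟨CuspForm.heckeULin 2 hrN, _⟩
          = (tdmSysU (N * q) r hrN hr.ne_zero).homPar ℤ ℤ :=
        tdmHecke_U (N * q) hr hrN (Set.notMem_empty r)
      rw [this]
      rcases (Nat.Prime.dvd_mul hr).mp hrN with hrN' | hrq
      · exact lro_U_mem hcU hwU hrN' hrN hr.ne_zero hx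
      · have hrq' : r = q := (Nat.prime_dvd_prime_iff_eq hr hq.out).mp hrq
        subst hrq'
        exact lro_Uq_mem N r h hx
  | algebraMap n =>
    have : tdmHecke (N * q) ⟨algebraMap ℤ _ n, Subalgebra.algebraMap_mem _ n⟩
        = algebraMap ℤ (Module.End ℤ ↥(tdmL (N * q))) n := by
      have h1 : (⟨algebraMap ℤ _ n, Subalgebra.algebraMap_mem _ n⟩ :
          CuspForm.heckeAlgebra (N * q) 2 (∅ : Set ℕ)) = ((n : ℤ) : CuspForm.heckeAlgebra (N * q) 2 ∅) := by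
        apply Subtype.ext; simp
      rw [h1, map_intCast]; simp
    rw [this]
    simpa using (lroK N q h).smul_mem n hx
  | add a b ha hb iha ihb =>
    have : tdmHecke (N * q) ⟨a + b, Subalgebra.add_mem _ ha hb⟩
        = tdmHecke (N * q) ⟨a, ha⟩ + tdmHecke (N * q) ⟨b, hb⟩ := by
      rw [← map_add]; rfl
    rw [this, LinearMap.add_apply]
    exact (lroK N q h).add_mem (iha x hx) (ihb x hx)
  | mul a b ha hb iha ihb =>
    have : tdmHecke (N * q) ⟨a * b, Subalgebra.mul_mem _ ha hb⟩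
        = tdmHecke (N * q) ⟨a, ha⟩ * tdmHecke (N * q) ⟨b, hb⟩ := by
      rw [← map_mul]; rfl
    rw [this, Module.End.mul_apply]
    exact iha _ (ihb x hx)

/-- **S41, package D.** -/
theorem lro_main (W : WeierstrassCurve ℤ) {p : ℕ}
    (hcT : LroCorT N q h) (hcU : LroCorU N q h) (hwU : LroWU N q h)
    (k : ↥(tdmL (N * q))) (hk1 : lroCor N q h k = 0) (hk2 : lroCor N q h (lroW N q h k) = 0)
    (hk : ¬ ∃ z : ↥(tdmL (N * q)), k = (p : ℤ) • z)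
    (hkT : ∀ (ℓ : ℕ) (hℓ : ℓ.Prime) (hℓNq : ¬ ℓ ∣ N * q), W.IsGoodPrimeFor ℓ → ℓ ≠ p →
      ∃ z : ↥(tdmL (N * q)), lroCor N q h z = 0 ∧ lroCor N q h (lroW N q h z) = 0 ∧
        (tdmSysT (N * q) ℓ hℓ hℓNq).homPar ℤ ℤ k - (W.apOfModel ℓ) • k = (p : ℤ) • z) :
    ∃ (g : CuspForm (Gamma0 (N * q)) 2) (𝔪' : Ideal (integralClosure ℤ ℂ)),
      g.IsNormalizedEigenform ∧ 𝔪'.IsMaximal ∧ (p : integralClosure ℤ ℂ) ∈ 𝔪' ∧
      (∀ ℓ : ℕ, ℓ.Prime → W.IsGoodPrimeFor ℓ → ¬ ℓ ∣ N * q → ℓ ≠ p →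
        ∃ a : integralClosure ℤ ℂ, (a : ℂ) = ModularFormClass.qCoeff g ℓ ∧
          a - ((W.apOfModel ℓ : ℤ) : integralClosure ℤ ℂ) ∈ 𝔪') ∧
      g.IsNewAt q := by
  have hqM : q ∣ N * q := Dvd.intro_left N rfl
  refine lrw_back (lroK N q h) W hq.out hqM (lro_stable hcT hcU hwU) ?_ k
    ((lro_mem_K N q h).mpr ⟨hk1, hk2⟩) ?_ ?_
  · intro x hx
    rw [tdmHecke_U (N * q) hq.out hqM (Set.notMem_empty q)]
    exact lro_Uq_Uq N q h hx
  · rintro ⟨y, -, hy⟩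
    exact hk ⟨y, hy⟩
  · intro ℓ hℓ hℓM hgood hℓp
    obtain ⟨z, hz1, hz2, hz⟩ := hkT ℓ hℓ hℓM hgood hℓp
    refine ⟨z, (lro_mem_K N q h).mpr ⟨hz1, hz2⟩, ?_⟩
    rw [tdmHecke_T (N * q) hℓ hℓM (Set.notMem_empty ℓ)]
    exact hz

end

end Fermat.Agent.LR
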